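import Mathlib
import Fermat.Agent.FF.Spec

/-!
# Program FF (S19/S32), packaging layer A2: basic facts on `ℤ_(ℓ)`-orders of equivariant functions

Owner: helper9.  Namespace `Fermat.Agent.FF`, prefix `ffsq`.  Mathlib + `FF/Spec.lean` (helper16).

* `GaloisRep.ratLocalizedAt ℓ` (`ℓ` prime) is a principal ideal domain with fraction field `ℚ`;
  a Galois-fixed element of `ℚ̄` integral over it lies in it (`ffsq_mem_of_fixed_of_isIntegral`).
* `ffsq_linearIndependent_of_equivariant`: `ℚ`-independent equivariant functions are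
  `ℚ̄`-independent (Artin).
* `ffsq_exists_basis`: a finitely generated `ℤ_(ℓ)`-module of equivariant functions has a finite
  `ℤ_(ℓ)`-basis which is `ℚ̄`-linearly independent.
* `ffsq_span_eq_top`: the `ℚ̄`-span of a separating subalgebra of functions on a finite set is
  everything.
-/

set_option autoImplicit false

namespace Fermat.Agent.FF

open GaloisRep

section Ring

variable (ℓ : ℕ)

theorem ffsq_intCast_mem (n : ℤ) : (n : ℚ) ∈ ratLocalizedAt ℓ := by
  change (n : ℚ).den.Coprime ℓ
  simp

instance ffsq_isFractionRing : IsFractionRing ↥(ratLocalizedAt ℓ) ℚ := by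
  refine IsFractionRing.of_field _ _ fun z => ?_
  refine ⟨⟨(z.num : ℚ), ffsq_intCast_mem ℓ _⟩, ⟨((z.den : ℤ) : ℚ), ffsq_intCast_mem ℓ _⟩, ?_⟩
  change z = (z.num : ℚ) / ((z.den : ℤ) : ℚ)
  rw [Int.cast_natCast, Rat.num_div_den]

theorem ffsq_algebraMap_injective :
    Function.Injective (algebraMap ↥(ratLocalizedAt ℓ) FfQb) :=
  (algebraMap ℚ FfQb).injective.comp Subtype.val_injective

instance ffsq_isTorsionFree : Module.IsTorsionFree ↥(ratLocalizedAt ℓ) FfQb := by
  rw [Module.isTorsionFree_iff_algebraMap_injective]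
  exact ffsq_algebraMap_injective ℓ

variable [hℓ : Fact ℓ.Prime]

theorem ffsq_mem_iff (q : ℚ) : q ∈ ratLocalizedAt ℓ ↔ ¬ ℓ ∣ q.den := by
  have hp : ℓ.Prime := hℓ.out
  change q.den.Coprime ℓ ↔ _
  rw [Nat.coprime_comm, hp.coprime_iff_not_dvd]

/-- the inverse of an integer prime to `ℓ` -/
theorem ffsq_inv_mem (d : ℕ) (hd : ¬ ℓ ∣ d) : ((d : ℚ))⁻¹ ∈ ratLocalizedAt ℓ := by
  rw [ffsq_mem_iff]
  intro h
  apply hd
  have h1 : ((d : ℚ))⁻¹.den ∣ d := by
    rw [Rat.inv_natCast_den]
    split_ifs with h0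
    · exact one_dvd _
    · exact dvd_rfl
  exact dvd_trans h h1

instance ffsq_isPrincipalIdealRing : IsPrincipalIdealRing ↥(ratLocalizedAt ℓ) := by
  constructor
  intro I
  -- the contraction to ℤ
  set J : Ideal ℤ := I.comap (algebraMap ℤ ↥(ratLocalizedAt ℓ)) with hJ
  obtain ⟨n, hn⟩ := (inferInstance : IsPrincipalIdealRing ℤ).principal J
  refine ⟨⟨algebraMap ℤ ↥(ratLocalizedAt ℓ) n, ?_⟩⟩
  apply le_antisymm
  · intro x hx
    have hden : ¬ ℓ ∣ (x : ℚ).den := (ffsq_mem_iff ℓ _).mp x.2
    set u : ↥(ratLocalizedAt ℓ) := ⟨(((x : ℚ).den : ℚ))⁻¹, ffsq_inv_mem ℓ _ hden⟩ with hu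
    have hx1 : x = algebraMap ℤ ↥(ratLocalizedAt ℓ) (x : ℚ).num * u := by
      apply Subtype.ext
      change (x : ℚ) = (((x : ℚ).num : ℤ) : ℚ) * (((x : ℚ).den : ℚ))⁻¹
      rw [← div_eq_mul_inv, Rat.num_div_den]
    have hnum : (x : ℚ).num ∈ J := by
      rw [hJ, Ideal.mem_comap]
      have : algebraMap ℤ ↥(ratLocalizedAt ℓ) (x : ℚ).num =
          x * algebraMap ℤ ↥(ratLocalizedAt ℓ) ((x : ℚ).den : ℤ) := by
        apply Subtype.ext
        change (((x : ℚ).num : ℤ) : ℚ) = (x : ℚ) * ((((x : ℚ).den : ℤ)) : ℚ)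
        rw [Int.cast_natCast, Rat.mul_den_eq_num]
      rw [this]
      exact I.mul_mem_right _ hx
    rw [hn] at hnum
    obtain ⟨c, hc⟩ := Submodule.mem_span_singleton.mp hnum
    rw [Submodule.mem_span_singleton]
    refine ⟨algebraMap ℤ ↥(ratLocalizedAt ℓ) c * u, ?_⟩
    rw [hx1, ← hc, smul_eq_mul, smul_eq_mul, map_mul]
    ring
  · rw [Ideal.submodule_span_eq, Ideal.span_singleton_le_iff_mem]
    have : n ∈ J := by rw [hn]; exact Submodule.mem_span_singleton_self n
    exact this

theorem ffsq_isGalois : IsGalois ℚ FfQb :=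
  have : IsAlgClosure ℚ (AlgebraicClosure ℚ) := AlgebraicClosure.instIsAlgClosure ℚ
  IsAlgClosure.isGalois ℚ (AlgebraicClosure ℚ)

omit hℓ in
/-- Galois-fixed elements are rational -/
theorem ffsq_rat_of_fixed (x : FfQb) (h : ∀ σ : FfGal, σ x = x) :
    ∃ c : ℚ, algebraMap ℚ FfQb c = x := by
  have := ffsq_isGalois
  exact (InfiniteGalois.mem_range_algebraMap_iff_fixed (k := ℚ) x).mpr h

/-- a Galois-fixed element integral over `ℤ_(ℓ)` lies in `ℤ_(ℓ)` -/
theorem ffsq_mem_of_fixed_of_isIntegral (x : FfQb) (h : ∀ σ : FfGal, σ x = x)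
    (hint : IsIntegral ↥(ratLocalizedAt ℓ) x) :
    ∃ r : ↥(ratLocalizedAt ℓ), algebraMap ↥(ratLocalizedAt ℓ) FfQb r = x := by
  obtain ⟨c, rfl⟩ := ffsq_rat_of_fixed x h
  have h1 : IsIntegral ↥(ratLocalizedAt ℓ) c :=
    (isIntegral_algebraMap_iff (algebraMap ℚ FfQb).injective).mp hint
  obtain ⟨y, hy⟩ := IsIntegrallyClosed.isIntegral_iff.mp h1
  exact ⟨y, by rw [IsScalarTower.algebraMap_apply ↥(ratLocalizedAt ℓ) ℚ FfQb, hy]⟩

end Ring

section Functions

variable {ℓ : ℕ} {M : Type} [AddCommGroup M] {act : FfGal → M → M}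

theorem ffsq_act_inv (hact : FfAct M act) (σ : FfGal) (m : M) : act σ (act σ⁻¹ m) = m := by
  rw [← hact.mul, mul_inv_cancel, hact.one]

theorem ffsq_inv_act (hact : FfAct M act) (σ : FfGal) (m : M) : act σ⁻¹ (act σ m) = m := by
  rw [← hact.mul, inv_mul_cancel, hact.one]

theorem ffsq_act_zero (hact : FfAct M act) (σ : FfGal) : act σ 0 = 0 := by
  have h := hact.add σ 0 0
  rw [add_zero] at h
  exact left_eq_add.mp h

theorem ffsq_act_neg (hact : FfAct M act) (σ : FfGal) (m : M) : act σ (-m) = -act σ m := by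
  have h := hact.add σ m (-m)
  rw [add_neg_cancel, ffsq_act_zero hact] at h
  exact eq_neg_of_add_eq_zero_right h.symm

theorem ffsq_act_sub (hact : FfAct M act) (σ : FfGal) (m m' : M) :
    act σ (m - m') = act σ m - act σ m' := by
  rw [sub_eq_add_neg, hact.add, ffsq_act_neg hact, ← sub_eq_add_neg]

theorem ffsq_act_injective (hact : FfAct M act) (σ : FfGal) : Function.Injective (act σ) := by
  intro m m' h
  rw [← ffsq_inv_act hact σ m, h, ffsq_inv_act hact]

/-- Galois descent of linear independence for equivariant functions (Artin). -/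
theorem ffsq_linearIndependent_of_equivariant (hact : FfAct M act) {ι : Type*}
    (v : ι → M → FfQb) (hv : LinearIndependent ℚ v)
    (heq : ∀ i (σ : FfGal) (m : M), v i (act σ m) = σ (v i m)) :
    LinearIndependent FfQb v := by
  classical
  rw [linearIndependent_iff']
  intro s
  induction s using Finset.induction_on with
  | empty => intro g _ i hi; simp at hi
  | insert j s hj ih =>
    intro g hg
    rw [Finset.sum_insert hj] at hg
    by_cases hgj : g j = 0
    · rw [hgj, zero_smul, zero_add] at hg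
      intro i hi
      rcases Finset.mem_insert.mp hi with rfl | hi
      · exact hgj
      · exact ih g hg i hi
    · exfalso
      -- normalise
      set g' : ι → FfQb := fun i => g i / g j with hg'
      have hrel : v j + ∑ i ∈ s, g' i • v i = 0 := by
        have h1 : (g j)⁻¹ • (g j • v j + ∑ i ∈ s, g i • v i) = 0 := by rw [hg, smul_zero]
        rw [smul_add, smul_smul, inv_mul_cancel₀ hgj, one_smul, Finset.smul_sum] at h1
        rw [← h1]
        congr 1
        refine Finset.sum_congr rfl fun i _ => ?_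
        rw [smul_smul, hg']
        simp only
        rw [div_eq_inv_mul]
      -- the coefficients are Galois invariant
      have hinv : ∀ (τ : FfGal), ∀ i ∈ s, τ (g' i) = g' i := by
        intro τ
        have h2 : ∑ i ∈ s, (τ (g' i) - g' i) • v i = 0 := by
          funext f
          have h3 := congrFun hrel (act τ⁻¹ f)
          have h4 := congrFun hrel f
          simp only [Pi.add_apply, Finset.sum_apply, Pi.smul_apply, smul_eq_mul,
            Pi.zero_apply] at h3 h4 ⊢
          have h5 := congrArg τ h3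
          rw [map_add, map_sum, map_zero, ← heq, ffsq_act_inv hact] at h5
          have h6 : ∀ i ∈ s, τ (g' i * v i (act τ⁻¹ f)) = τ (g' i) * v i f := by
            intro i _
            rw [map_mul, ← heq, ffsq_act_inv hact]
          rw [Finset.sum_congr rfl h6] at h5
          have h7 : ∑ i ∈ s, (τ (g' i) - g' i) * v i f =
              (v j f + ∑ i ∈ s, τ (g' i) * v i f) - (v j f + ∑ i ∈ s, g' i * v i f) := by
            rw [add_sub_add_left_eq_sub, ← Finset.sum_sub_distrib]
            refine Finset.sum_congr rfl fun i _ => ?_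
            ring
          rw [h7, h5, h4, sub_zero]
        intro i hi
        exact sub_eq_zero.mp (ih _ h2 i hi)
      -- so they are rational
      have hrat : ∀ i ∈ s, ∃ c : ℚ, g' i = algebraMap ℚ FfQb c := by
        intro i hi
        obtain ⟨c, hc⟩ := ffsq_rat_of_fixed (g' i) (fun τ => hinv τ i hi)
        exact ⟨c, hc.symm⟩
      choose! c hc using hrat
      have hrel' : ∑ i ∈ insert j s, (if i = j then (1 : ℚ) else c i) • v i = 0 := by
        rw [Finset.sum_insert hj, if_pos rfl, one_smul, ← hrel]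
        congr 1
        refine Finset.sum_congr rfl fun i hi => ?_
        have hij : i ≠ j := fun h => hj (h ▸ hi)
        rw [if_neg hij, hc i hi, algebraMap_smul]
      have h8 := linearIndependent_iff'.mp hv (insert j s) _ hrel' j (Finset.mem_insert_self j s)
      rw [if_pos rfl] at h8
      exact one_ne_zero h8

/-- a finitely generated `ℤ_(ℓ)`-module of equivariant functions has a finite basis which is
linearly independent over `ℚ̄`. -/
theorem ffsq_exists_basis [Fact ℓ.Prime] (hact : FfAct M act)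
    (N : Submodule ↥(ratLocalizedAt ℓ) (M → FfQb)) (hfg : N.FG)
    (heq : ∀ φ ∈ N, ∀ (σ : FfGal) (m : M), φ (act σ m) = σ (φ m)) :
    ∃ (n : ℕ) (e : Fin n → M → FfQb), (∀ i, e i ∈ N) ∧ LinearIndependent FfQb e ∧
      ∀ φ ∈ N, ∃ c : Fin n → ↥(ratLocalizedAt ℓ), φ = ∑ i, c i • e i := by
  classical
  have hfin : Module.Finite ↥(ratLocalizedAt ℓ) N := Module.Finite.iff_fg.mpr hfg
  have htf : Module.IsTorsionFree ↥(ratLocalizedAt ℓ) N :=
    Function.Injective.moduleIsTorsionFree N.subtype Subtype.val_injective (fun _ _ => rfl)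
  have hfree : Module.Free ↥(ratLocalizedAt ℓ) N := Module.free_of_finite_type_torsion_free'
  let b₀ := Module.finBasis ↥(ratLocalizedAt ℓ) N
  refine ⟨_, fun i => (b₀ i : M → FfQb), fun i => (b₀ i).2, ?_, ?_⟩
  · have hvZ : LinearIndependent ↥(ratLocalizedAt ℓ) (fun i => (b₀ i : M → FfQb)) :=
      b₀.linearIndependent.map' N.subtype (Submodule.ker_subtype _)
    have hvQ : LinearIndependent ℚ (fun i => (b₀ i : M → FfQb)) :=
      (LinearIndependent.iff_fractionRing ↥(ratLocalizedAt ℓ) ℚ).mp hvZ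
    exact ffsq_linearIndependent_of_equivariant hact _ hvQ (fun i σ m => heq _ (b₀ i).2 σ m)
  · intro φ hφ
    refine ⟨fun i => b₀.repr ⟨φ, hφ⟩ i, ?_⟩
    have h1 := b₀.sum_repr ⟨φ, hφ⟩
    have h2 := congrArg (N.subtype) h1
    rw [map_sum] at h2
    simp only [map_smul, Submodule.subtype_apply] at h2
    exact h2.symm

/-- a subalgebra of functions on a finite set which separates points is everything -/
theorem ffsq_subalgebra_eq_top {K X : Type*} [Field K] [Finite X] (S : Subalgebra K (X → K))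
    (hsep : ∀ f g : X, f ≠ g → ∃ φ ∈ S, φ f ≠ φ g) : S = ⊤ := by
  classical
  have := Fintype.ofFinite X
  have hind : ∀ f : X, (Pi.single f (1 : K) : X → K) ∈ S := by
    intro f
    choose! φ hφS hφ using hsep f
    have hprod : (∏ g ∈ Finset.univ.erase f,
        ((φ g f - φ g g)⁻¹ • (φ g - algebraMap K (X → K) (φ g g)))) ∈ S := by
      refine Subalgebra.prod_mem S fun g hg => ?_
      have hgf : f ≠ g := fun h => (Finset.ne_of_mem_erase hg) h.symm
      exact S.smul_mem (S.sub_mem (hφS g hgf) (S.algebraMap_mem _)) _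
    convert hprod using 1
    funext x
    rw [Finset.prod_apply]
    by_cases hx : x = f
    · subst hx
      rw [Pi.single_eq_same]
      symm
      refine Finset.prod_eq_one fun g hg => ?_
      have hgf : x ≠ g := fun h => (Finset.ne_of_mem_erase hg) h.symm
      have h1 : φ g x - φ g g ≠ 0 := sub_ne_zero.mpr (hφ g hgf)
      simp only [Pi.smul_apply, Pi.sub_apply, smul_eq_mul, Pi.algebraMap_apply,
        Algebra.algebraMap_self, RingHom.id_apply]
      exact inv_mul_cancel₀ h1
    · rw [Pi.single_eq_of_ne hx]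
      symm
      refine Finset.prod_eq_zero (Finset.mem_erase.mpr ⟨hx, Finset.mem_univ x⟩) ?_
      simp
  rw [eq_top_iff]
  intro ψ _
  have h : ψ = ∑ f : X, ψ f • (Pi.single f (1 : K) : X → K) := by
    funext x
    rw [Finset.sum_apply]
    simp only [Pi.smul_apply, smul_eq_mul]
    rw [Finset.sum_eq_single x]
    · simp
    · intro b _ hb
      rw [Pi.single_eq_of_ne (Ne.symm hb), mul_zero]
    · intro h; exact absurd (Finset.mem_univ x) h
  rw [h]
  exact S.sum_mem fun f _ => S.smul_mem (hind f) _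

/-- the `ℚ̄`-span of a separating ring of functions on a finite set is everything -/
theorem ffsq_span_eq_top {R : Type*} [CommRing R] [Algebra R FfQb] {X : Type*} [Finite X]
    (H : Subalgebra R (X → FfQb))
    (hsep : ∀ f g : X, f ≠ g → ∃ φ ∈ H, φ f ≠ φ g) :
    Submodule.span FfQb (H : Set (X → FfQb)) = ⊤ := by
  have hS : Algebra.adjoin FfQb (H : Set (X → FfQb)) = ⊤ := by
    apply ffsq_subalgebra_eq_top
    intro f g hfg
    obtain ⟨φ, hφ, hne⟩ := hsep f g hfg
    exact ⟨φ, Algebra.subset_adjoin hφ, hne⟩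
  have h1 : Subalgebra.toSubmodule (Algebra.adjoin FfQb (H : Set (X → FfQb))) =
      Submodule.span FfQb (Submonoid.closure (H : Set (X → FfQb))) :=
    Algebra.adjoin_eq_span _ _
  rw [hS] at h1
  have h2 : (Submonoid.closure (H : Set (X → FfQb)) : Set (X → FfQb)) = H := by
    have : (H : Set (X → FfQb)) = (H.toSubmonoid : Set (X → FfQb)) := rfl
    rw [this, Submonoid.closure_eq]
  rw [Algebra.top_toSubmodule] at h1
  rw [h1, h2]

/-- values of elements of a finite subalgebra are integral -/
theorem ffsq_isIntegral_apply {R : Type*} [CommRing R] [Algebra R FfQb] {X : Type*}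
    (H : Subalgebra R (X → FfQb)) (hfg : H.toSubmodule.FG) (φ : X → FfQb) (hφ : φ ∈ H) (x : X) :
    IsIntegral R (φ x) := by
  have h1 : IsIntegral R φ := IsIntegral.of_mem_of_fg H hfg φ hφ
  exact h1.map (Pi.evalAlgHom R (fun _ : X => FfQb) x)

end Functions

end Fermat.Agent.FF
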