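import Mathlib
import Fermat.Agent.FF.Spec
import Fermat.Agent.FF.Order.Basics

/-!
# Program FF (S19/S32), packaging layer A2: sub, quotient, product of `ℤ_(ℓ)`-orders

Owner: helper9.  Namespace `Fermat.Agent.FF`, prefix `ffsq`.

* `ffsq_sub : FfSubSpec ℓ`   (restriction of functions to a stable subgroup)
* `ffsq_quot : FfQuotSpec ℓ` (invariant functions; separation by the INTEGRAL averaging operator,
  `Δ`-closedness by a two-step basis argument: no division by `|K|`)
* `ffsq_prod : FfProdSpec ℓ` (the subalgebra generated by the two pullbacks)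
-/

set_option autoImplicit false

noncomputable section

namespace Fermat.Agent.FF

open GaloisRep

section Pull

variable (R : Type*) [CommRing R] [Algebra R FfQb]

/-- pullback of functions along a map -/
def ffsqPull {X Y : Type*} (f : X → Y) : (Y → FfQb) →ₐ[R] (X → FfQb) where
  toFun φ := fun x => φ (f x)
  map_one' := rfl
  map_mul' _ _ := rfl
  map_zero' := rfl
  map_add' _ _ := rfl
  commutes' _ := rfl

@[simp] theorem ffsqPull_apply {X Y : Type*} (f : X → Y) (φ : Y → FfQb) (x : X) :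
    ffsqPull R f φ x = φ (f x) := rfl

variable {R}

/-- the "tensor product" of two rings of functions, inside the functions on the product -/
def ffsqBox {X Y : Type*} (S : Subalgebra R (X → FfQb)) (T : Subalgebra R (Y → FfQb)) :
    Subalgebra R (X × Y → FfQb) :=
  S.map (ffsqPull R Prod.fst) ⊔ T.map (ffsqPull R Prod.snd)

theorem ffsq_mem_box_iff {X Y : Type*} (S : Subalgebra R (X → FfQb))
    (T : Subalgebra R (Y → FfQb)) (F : X × Y → FfQb) :
    F ∈ ffsqBox S T ↔ ∃ (n : ℕ) (a : Fin n → ↥S) (b : Fin n → ↥T),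
      ∀ x y, F (x, y) = ∑ i, (a i).1 x * (b i).1 y := by
  constructor
  · intro hF
    have h1 : F ∈ Subalgebra.toSubmodule (ffsqBox S T) := hF
    rw [ffsqBox, ← Subalgebra.mul_toSubmodule, Submodule.mul_eq_span_mul_set,
      Submodule.mem_span_set'] at h1
    obtain ⟨n, f, g, hg⟩ := h1
    have h2 : ∀ i, ∃ a ∈ S, ∃ b ∈ T, ∀ x y, (g i : X × Y → FfQb) (x, y) = a x * b y := by
      intro i
      obtain ⟨u, hu, v, hv, huv⟩ := Set.mem_mul.mp (g i).2
      obtain ⟨a, ha, rfl⟩ := Subalgebra.mem_map.mp hu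
      obtain ⟨b, hb, rfl⟩ := Subalgebra.mem_map.mp hv
      refine ⟨a, ha, b, hb, fun x y => ?_⟩
      rw [← huv]
      rfl
    choose a ha b hb hab using h2
    refine ⟨n, fun i => ⟨f i • a i, S.smul_mem (ha i) _⟩, fun i => ⟨b i, hb i⟩, fun x y => ?_⟩
    rw [← hg, Finset.sum_apply]
    refine Finset.sum_congr rfl fun i _ => ?_
    simp only [Pi.smul_apply, hab, Algebra.smul_def, mul_assoc]
  · rintro ⟨n, a, b, hab⟩
    have h1 : F = ∑ i, ffsqPull R Prod.fst (a i).1 * ffsqPull R Prod.snd (b i).1 := by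
      funext p
      rw [Finset.sum_apply]
      exact hab p.1 p.2
    rw [h1]
    refine Subalgebra.sum_mem _ fun i _ => Subalgebra.mul_mem _ ?_ ?_
    · exact Algebra.mem_sup_left (Subalgebra.mem_map.mpr ⟨_, (a i).2, rfl⟩)
    · exact Algebra.mem_sup_right (Subalgebra.mem_map.mpr ⟨_, (b i).2, rfl⟩)

omit [Algebra R FfQb] in
theorem ffsq_finite_iff_fg {A : Type*} [CommRing A] [Algebra R A] (S : Subalgebra R A) :
    Module.Finite R ↥S ↔ (Subalgebra.toSubmodule S).FG :=
  Module.Finite.iff_fg (N := Subalgebra.toSubmodule S)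

/-- `Δ`-closedness in terms of the box -/
theorem ffsq_comul_iff {M : Type*} [Add M] (H : Subalgebra R (M → FfQb)) (φ : M → FfQb) :
    (∃ (n : ℕ) (a b : Fin n → ↥H), ∀ m m' : M, φ (m + m') = ∑ i, (a i).1 m * (b i).1 m') ↔
      ffsqPull R (fun p : M × M => p.1 + p.2) φ ∈ ffsqBox H H := by
  rw [ffsq_mem_box_iff]
  rfl

end Pull

section Equivariant

variable (ℓ : ℕ) {M : Type} (act : FfGal → M → M)

/-- the algebra of all equivariant functions -/
def ffsqEqv : Subalgebra ↥(ratLocalizedAt ℓ) (M → FfQb) where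
  carrier := {φ | ∀ (σ : FfGal) (m : M), φ (act σ m) = σ (φ m)}
  mul_mem' {a b} ha hb σ m := by rw [Pi.mul_apply, Pi.mul_apply, ha, hb, map_mul]
  one_mem' σ m := by rw [Pi.one_apply, Pi.one_apply, map_one]
  add_mem' {a b} ha hb σ m := by rw [Pi.add_apply, Pi.add_apply, ha, hb, map_add]
  zero_mem' σ m := by rw [Pi.zero_apply, Pi.zero_apply, map_zero]
  algebraMap_mem' r σ m := by
    change algebraMap ℚ FfQb (r : ℚ) = σ (algebraMap ℚ FfQb (r : ℚ))
    rw [σ.commutes]

theorem ffsq_mem_eqv (φ : M → FfQb) :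
    φ ∈ ffsqEqv ℓ act ↔ ∀ (σ : FfGal) (m : M), φ (act σ m) = σ (φ m) := Iff.rfl

end Equivariant

section Sub

variable (ℓ : ℕ)

/-- **(A2) sub**: restriction of an order to a stable subgroup. -/
theorem ffsq_sub : FfSubSpec ℓ := by
  intro M M' _ _ _ act act' i hi heqv _ hord
  obtain ⟨H, hH⟩ := hord
  refine ⟨H.map (ffsqPull ↥(ratLocalizedAt ℓ) i), ?_, ?_, ?_, ?_⟩
  · rw [Subalgebra.map_toSubmodule]
    exact hH.fg.map _
  · intro φ' hφ' σ _ m
    obtain ⟨φ, hφ, rfl⟩ := Subalgebra.mem_map.mp hφ'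
    change φ (i (act' σ m)) = σ (φ (i m))
    rw [heqv, hH.equiv φ hφ σ (Subgroup.mem_top σ)]
  · intro m m' hne
    obtain ⟨φ, hφ, hφne⟩ := hH.sep (i m) (i m') (fun h => hne (hi h))
    exact ⟨_, Subalgebra.mem_map.mpr ⟨φ, hφ, rfl⟩, hφne⟩
  · intro φ' hφ'
    obtain ⟨φ, hφ, rfl⟩ := Subalgebra.mem_map.mp hφ'
    obtain ⟨n, a, b, hab⟩ := hH.comul φ hφ
    refine ⟨n, fun j => ⟨_, Subalgebra.mem_map.mpr ⟨(a j).1, (a j).2, rfl⟩⟩,
      fun j => ⟨_, Subalgebra.mem_map.mpr ⟨(b j).1, (b j).2, rfl⟩⟩, fun m m' => ?_⟩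
    change φ (i (m + m')) = ∑ j, (a j).1 (i m) * (b j).1 (i m')
    rw [map_add, hab]

end Sub

section Prod

variable (ℓ : ℕ)

/-- **(A2) product**. -/
theorem ffsq_prod : FfProdSpec ℓ := by
  intro M M' _ _ _ _ act act' _ _ hord hord'
  obtain ⟨H, hH⟩ := hord
  obtain ⟨H', hH'⟩ := hord'
  refine ⟨ffsqBox H H', ?_, ?_, ?_, ?_⟩
  · have h1 : Module.Finite ↥(ratLocalizedAt ℓ) ↥(H.map (ffsqPull ↥(ratLocalizedAt ℓ)
        (Prod.fst : M × M' → M))) := by
      refine (ffsq_finite_iff_fg _).mpr ?_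
      rw [Subalgebra.map_toSubmodule]
      exact hH.fg.map _
    have h2 : Module.Finite ↥(ratLocalizedAt ℓ) ↥(H'.map (ffsqPull ↥(ratLocalizedAt ℓ)
        (Prod.snd : M × M' → M'))) := by
      refine (ffsq_finite_iff_fg _).mpr ?_
      rw [Subalgebra.map_toSubmodule]
      exact hH'.fg.map _
    have h3 := Subalgebra.finite_sup (H.map (ffsqPull ↥(ratLocalizedAt ℓ)
      (Prod.fst : M × M' → M))) (H'.map (ffsqPull ↥(ratLocalizedAt ℓ) (Prod.snd : M × M' → M')))
    exact (ffsq_finite_iff_fg _).mp h3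
  · have hle : ffsqBox H H' ≤ ffsqEqv ℓ (fun σ (x : M × M') => (act σ x.1, act' σ x.2)) := by
      apply sup_le
      · rintro _ ⟨φ, hφ, rfl⟩ σ x
        exact hH.equiv φ hφ σ (Subgroup.mem_top σ) x.1
      · rintro _ ⟨φ, hφ, rfl⟩ σ x
        exact hH'.equiv φ hφ σ (Subgroup.mem_top σ) x.2
    intro φ hφ σ _ x
    exact hle hφ σ x
  · intro x y hne
    by_cases h1 : x.1 = y.1
    · have h2 : x.2 ≠ y.2 := fun h2 => hne (Prod.ext h1 h2)
      obtain ⟨φ, hφ, hφne⟩ := hH'.sep _ _ h2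
      exact ⟨_, Algebra.mem_sup_right (Subalgebra.mem_map.mpr ⟨φ, hφ, rfl⟩), hφne⟩
    · obtain ⟨φ, hφ, hφne⟩ := hH.sep _ _ h1
      exact ⟨_, Algebra.mem_sup_left (Subalgebra.mem_map.mpr ⟨φ, hφ, rfl⟩), hφne⟩
  · have hle : ffsqBox H H' ≤ (ffsqBox (ffsqBox H H') (ffsqBox H H')).comap
        (ffsqPull ↥(ratLocalizedAt ℓ) (fun p : (M × M') × (M × M') => p.1 + p.2)) := by
      apply sup_le
      · rintro _ ⟨φ, hφ, rfl⟩
        obtain ⟨n, a, b, hab⟩ := hH.comul φ hφ
        rw [Subalgebra.mem_comap, ffsq_mem_box_iff]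
        refine ⟨n, fun j => ⟨_, Algebra.mem_sup_left (Subalgebra.mem_map.mpr ⟨_, (a j).2, rfl⟩)⟩,
          fun j => ⟨_, Algebra.mem_sup_left (Subalgebra.mem_map.mpr ⟨_, (b j).2, rfl⟩)⟩,
          fun x y => ?_⟩
        exact hab x.1 y.1
      · rintro _ ⟨φ, hφ, rfl⟩
        obtain ⟨n, a, b, hab⟩ := hH'.comul φ hφ
        rw [Subalgebra.mem_comap, ffsq_mem_box_iff]
        refine ⟨n, fun j => ⟨_, Algebra.mem_sup_right (Subalgebra.mem_map.mpr ⟨_, (a j).2, rfl⟩)⟩,
          fun j => ⟨_, Algebra.mem_sup_right (Subalgebra.mem_map.mpr ⟨_, (b j).2, rfl⟩)⟩,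
          fun x y => ?_⟩
        exact hab x.2 y.2
    intro φ hφ
    exact (ffsq_comul_iff _ φ).mpr (hle hφ)

end Prod

section Quot

variable {ℓ : ℕ} {M : Type} [AddCommGroup M]

/-- the algebra of `K`-invariant functions -/
def ffsqInv (ℓ : ℕ) (K : AddSubgroup M) : Subalgebra ↥(ratLocalizedAt ℓ) (M → FfQb) where
  carrier := {φ | ∀ (m : M), ∀ k ∈ K, φ (m + k) = φ m}
  mul_mem' {a b} ha hb m k hk := by rw [Pi.mul_apply, Pi.mul_apply, ha m k hk, hb m k hk]
  one_mem' m k _ := rfl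
  add_mem' {a b} ha hb m k hk := by rw [Pi.add_apply, Pi.add_apply, ha m k hk, hb m k hk]
  zero_mem' m k _ := rfl
  algebraMap_mem' r m k _ := rfl

theorem ffsq_mem_inv (K : AddSubgroup M) (φ : M → FfQb) :
    φ ∈ ffsqInv ℓ K ↔ ∀ (m : M), ∀ k ∈ K, φ (m + k) = φ m := Iff.rfl

variable [Finite M] {act : FfGal → M → M} {H : Subalgebra ↥(ratLocalizedAt ℓ) (M → FfQb)}

/-- the integral averaging operator maps `H` to the `K`-invariants of `H`. -/
theorem ffsq_avg_mem [Fact ℓ.Prime] (hact : FfAct M act)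
    (hH : FfOrder ↥(ratLocalizedAt ℓ) ⊤ M act H) (K : AddSubgroup M)
    (hK : ∀ (σ : FfGal), ∀ k ∈ K, act σ k ∈ K) [Fintype ↥K] (φ : M → FfQb) (hφ : φ ∈ H) :
    (fun m => ∑ k : ↥K, φ (m + (k : M))) ∈ H ⊓ ffsqInv ℓ K := by
  classical
  obtain ⟨n, a, b, hab⟩ := hH.comul φ hφ
  -- the constants
  have hc : ∀ i, ∃ r : ↥(ratLocalizedAt ℓ),
      algebraMap ↥(ratLocalizedAt ℓ) FfQb r = ∑ k : ↥K, (b i).1 (k : M) := by
    intro i
    apply ffsq_mem_of_fixed_of_isIntegral
    · intro σ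
      rw [map_sum]
      have hbij : Function.Bijective (fun k : ↥K => (⟨act σ k, hK σ k k.2⟩ : ↥K)) := by
        apply Finite.injective_iff_bijective.mp
        intro k k' h
        exact Subtype.ext (ffsq_act_injective hact σ (congrArg Subtype.val h))
      rw [← hbij.sum_comp (fun k : ↥K => (b i).1 (k : M))]
      refine Finset.sum_congr rfl fun k _ => ?_
      exact (hH.equiv _ (b i).2 σ (Subgroup.mem_top σ) k).symm
    · exact IsIntegral.sum _ fun k _ => ffsq_isIntegral_apply H hH.fg _ (b i).2 _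
  choose r hr using hc
  have h1 : (fun m => ∑ k : ↥K, φ (m + (k : M))) = ∑ i, r i • (a i).1 := by
    funext m
    rw [Finset.sum_apply]
    simp only [hab, Pi.smul_apply, Algebra.smul_def, hr]
    rw [Finset.sum_comm]
    refine Finset.sum_congr rfl fun i _ => ?_
    rw [Finset.sum_mul]
    exact Finset.sum_congr rfl fun k _ => mul_comm _ _
  refine ⟨?_, ?_⟩
  · rw [h1]
    exact Subalgebra.sum_mem _ fun i _ => Subalgebra.smul_mem _ (a i).2 _
  · intro m k₀ hk₀
    change ∑ k : ↥K, φ (m + k₀ + (k : M)) = ∑ k : ↥K, φ (m + (k : M))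
    rw [← Equiv.sum_comp (Equiv.addLeft (⟨k₀, hk₀⟩ : ↥K)) (fun k : ↥K => φ (m + (k : M)))]
    refine Finset.sum_congr rfl fun k _ => ?_
    rw [Equiv.coe_addLeft, AddSubgroup.coe_add, add_assoc]

/-- the invariants of `H` separate the points of the quotient. -/
theorem ffsq_inv_sep [Fact ℓ.Prime] (hact : FfAct M act)
    (hH : FfOrder ↥(ratLocalizedAt ℓ) ⊤ M act H) (K : AddSubgroup M)
    (hK : ∀ (σ : FfGal), ∀ k ∈ K, act σ k ∈ K) (m₁ m₂ : M) (hne : m₁ - m₂ ∉ K) :
    ∃ φ ∈ H ⊓ ffsqInv ℓ K, φ m₁ ≠ φ m₂ := by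
  classical
  have := Fintype.ofFinite ↥K
  by_contra hcon
  push Not at hcon
  -- the linear functional
  set L : (M → FfQb) →ₗ[FfQb] FfQb :=
    ∑ k : ↥K, (LinearMap.proj (R := FfQb) (φ := fun _ : M => FfQb) (m₁ + (k : M)) -
      LinearMap.proj (R := FfQb) (φ := fun _ : M => FfQb) (m₂ + (k : M))) with hL
  have hLapp : ∀ F : M → FfQb, L F = ∑ k : ↥K, (F (m₁ + (k : M)) - F (m₂ + (k : M))) := by
    intro F
    rw [hL, LinearMap.sum_apply]
    rfl
  have hvan : Submodule.span FfQb (H : Set (M → FfQb)) ≤ LinearMap.ker L := by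
    rw [Submodule.span_le]
    intro φ hφ
    rw [SetLike.mem_coe, LinearMap.mem_ker, hLapp, Finset.sum_sub_distrib, sub_eq_zero]
    exact hcon _ (ffsq_avg_mem hact hH K hK φ hφ)
  rw [ffsq_span_eq_top H hH.sep] at hvan
  have h1 : L (fun m => if m - m₁ ∈ K then 1 else 0) = 0 :=
    LinearMap.mem_ker.mp (hvan Submodule.mem_top)
  rw [hLapp] at h1
  have h2 : ∀ k : ↥K, ((if m₁ + (k : M) - m₁ ∈ K then (1 : FfQb) else 0) -
      (if m₂ + (k : M) - m₁ ∈ K then (1 : FfQb) else 0)) = 1 := by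
    intro k
    rw [if_pos (by rw [add_sub_cancel_left]; exact k.2), if_neg, sub_zero]
    intro h
    apply hne
    have h3 : m₁ - m₂ = (k : M) - (m₂ + (k : M) - m₁) := by abel
    rw [h3]
    exact K.sub_mem k.2 h
  rw [Finset.sum_congr rfl fun k _ => h2 k, Finset.sum_const, Finset.card_univ, nsmul_eq_mul,
    mul_one] at h1
  have h4 : (Fintype.card ↥K : FfQb) ≠ 0 := by
    rw [Nat.cast_ne_zero]
    exact Fintype.card_ne_zero
  exact h4 h1

omit [Finite M] in
/-- `Δ`-closedness of the invariants: a two-step basis argument (no division by `|K|`). -/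
theorem ffsq_inv_comul [Fact ℓ.Prime] (hact : FfAct M act)
    (hH : FfOrder ↥(ratLocalizedAt ℓ) ⊤ M act H) (K : AddSubgroup M)
    (φ : M → FfQb) (hφ : φ ∈ H ⊓ ffsqInv ℓ K) :
    ∃ (n : ℕ) (a b : Fin n → M → FfQb), (∀ i, a i ∈ H ⊓ ffsqInv ℓ K) ∧
      (∀ i, b i ∈ H ⊓ ffsqInv ℓ K) ∧ ∀ m m' : M, φ (m + m') = ∑ i, a i m * b i m' := by
  classical
  have heqH : ∀ ψ ∈ Subalgebra.toSubmodule H, ∀ (σ : FfGal) (m : M), ψ (act σ m) = σ (ψ m) :=
    fun ψ hψ σ m => hH.equiv ψ hψ σ (Subgroup.mem_top σ) m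
  obtain ⟨nJ, h, hhH, hhind, hhspan⟩ :=
    ffsq_exists_basis hact (Subalgebra.toSubmodule H) hH.fg heqH
  have hfgK : (Subalgebra.toSubmodule (H ⊓ ffsqInv ℓ K)).FG :=
    Submodule.FG.of_le hH.fg (fun ψ hψ => hψ.1)
  obtain ⟨nI, e, heHK, heind, hespan⟩ :=
    ffsq_exists_basis hact (Subalgebra.toSubmodule (H ⊓ ffsqInv ℓ K)) hfgK
      (fun ψ hψ => heqH ψ hψ.1)
  obtain ⟨n, a, b, hab⟩ := hH.comul φ hφ.1
  have hφK : ∀ (m : M), ∀ k ∈ K, φ (m + k) = φ m := hφ.2
  -- step 1: expand the right factors in the basis `h`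
  have hb : ∀ t, ∃ c : Fin nJ → ↥(ratLocalizedAt ℓ), (b t).1 = ∑ j, c j • h j :=
    fun t => hhspan _ (b t).2
  choose r hr using hb
  set α : Fin nJ → M → FfQb := fun j => ∑ t, r t j • (a t).1 with hα
  have hαH : ∀ j, α j ∈ H := fun j =>
    Subalgebra.sum_mem _ fun t _ => Subalgebra.smul_mem _ (a t).2 _
  have h1 : ∀ m m', φ (m + m') = ∑ j, α j m * h j m' := by
    intro m m'
    rw [hab]
    simp only [hα, hr, Finset.sum_apply, Pi.smul_apply]
    simp only [Algebra.smul_def, Finset.mul_sum, Finset.sum_mul]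
    rw [Finset.sum_comm]
    refine Finset.sum_congr rfl fun j _ => Finset.sum_congr rfl fun t _ => ?_
    ring
  have hαK : ∀ j, α j ∈ ffsqInv ℓ K := by
    intro j m k hk
    have h2 : ∑ j, (α j (m + k) - α j m) • h j = 0 := by
      funext m'
      rw [Finset.sum_apply]
      simp only [Pi.smul_apply, smul_eq_mul, Pi.zero_apply, sub_mul]
      rw [Finset.sum_sub_distrib, ← h1, ← h1, sub_eq_zero]
      have h3 : m + k + m' = m + m' + k := by abel
      rw [h3, hφK _ k hk]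
    exact sub_eq_zero.mp (Fintype.linearIndependent_iff.mp hhind _ h2 j)
  -- step 2: expand the left factors in the basis `e` of the invariants
  have ha' : ∀ j, ∃ c : Fin nI → ↥(ratLocalizedAt ℓ), α j = ∑ i, c i • e i :=
    fun j => hespan _ ⟨hαH j, hαK j⟩
  choose s hs using ha'
  set β : Fin nI → M → FfQb := fun i => ∑ j, s j i • h j with hβ
  have hβH : ∀ i, β i ∈ H := fun i =>
    Subalgebra.sum_mem _ fun j _ => Subalgebra.smul_mem _ (hhH j) _
  have h4 : ∀ m m', φ (m + m') = ∑ i, e i m * β i m' := by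
    intro m m'
    rw [h1]
    simp only [hβ, hs, Finset.sum_apply, Pi.smul_apply]
    simp only [Algebra.smul_def, Finset.mul_sum, Finset.sum_mul]
    rw [Finset.sum_comm]
    refine Finset.sum_congr rfl fun i _ => Finset.sum_congr rfl fun j _ => ?_
    ring
  have hβK : ∀ i, β i ∈ ffsqInv ℓ K := by
    intro i m' k hk
    have h2 : ∑ i, (β i (m' + k) - β i m') • e i = 0 := by
      funext m
      rw [Finset.sum_apply]
      simp only [Pi.smul_apply, smul_eq_mul, Pi.zero_apply, sub_mul]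
      rw [Finset.sum_sub_distrib]
      have h5 : ∀ x : M, ∑ i, β i x * e i m = φ (m + x) := by
        intro x
        rw [h4]
        exact Finset.sum_congr rfl fun i _ => mul_comm _ _
      rw [h5, h5, sub_eq_zero, ← add_assoc, hφK _ k hk]
    exact sub_eq_zero.mp (Fintype.linearIndependent_iff.mp heind _ h2 i)
  exact ⟨nI, e, β, heHK, fun i => ⟨hβH i, hβK i⟩, h4⟩

/-- descent of an invariant function to the quotient -/
def ffsqDesc {M' : Type} [AddCommGroup M'] (q : M →+ M') (hq : Function.Surjective q)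
    (φ : M → FfQb) : M' → FfQb :=
  fun m' => φ (Function.surjInv hq m')

omit [Finite M] in
theorem ffsqDesc_apply {M' : Type} [AddCommGroup M'] (q : M →+ M') (hq : Function.Surjective q)
    (φ : M → FfQb) (hφ : φ ∈ ffsqInv ℓ q.ker) (m : M) : ffsqDesc q hq φ (q m) = φ m := by
  unfold ffsqDesc
  have h1 : q (Function.surjInv hq (q m)) = q m := Function.surjInv_eq hq (q m)
  have h2 : m - Function.surjInv hq (q m) ∈ q.ker := by
    rw [AddMonoidHom.mem_ker, map_sub, h1, sub_self]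
  have h3 := hφ (Function.surjInv hq (q m)) _ h2
  rw [add_sub_cancel] at h3
  exact h3.symm

end Quot

section QuotMain

variable (ℓ : ℕ) [Fact ℓ.Prime]

/-- **(A2) quotient**: the invariant functions give an order on an equivariant quotient. -/
theorem ffsq_quot : FfQuotSpec ℓ := by
  intro M M' _ _ _ act act' q hq heqv hact hord
  obtain ⟨H, hH⟩ := hord
  classical
  set K : AddSubgroup M := q.ker with hKdef
  have hact'0 : ∀ σ, act' σ 0 = 0 := by
    intro σ
    have h := heqv σ 0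
    rw [ffsq_act_zero hact σ, map_zero] at h
    exact h.symm
  have hK : ∀ (σ : FfGal), ∀ k ∈ K, act σ k ∈ K := by
    intro σ k hk
    rw [hKdef, AddMonoidHom.mem_ker] at hk ⊢
    rw [heqv, hk, hact'0]
  have hinj : Function.Injective (ffsqPull ↥(ratLocalizedAt ℓ) q) := by
    intro ψ ψ' h
    funext m'
    obtain ⟨m, rfl⟩ := hq m'
    exact congrFun h m
  have hpullinv : ∀ ψ : M' → FfQb, ffsqPull ↥(ratLocalizedAt ℓ) q ψ ∈ ffsqInv ℓ K := by
    intro ψ m k hk
    change ψ (q (m + k)) = ψ (q m)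
    rw [map_add, AddMonoidHom.mem_ker.mp hk, add_zero]
  have hdesc : ∀ φ ∈ H ⊓ ffsqInv ℓ K,
      ffsqDesc q hq φ ∈ H.comap (ffsqPull ↥(ratLocalizedAt ℓ) q) := by
    intro φ hφ
    rw [Subalgebra.mem_comap]
    have h1 : ffsqPull ↥(ratLocalizedAt ℓ) q (ffsqDesc q hq φ) = φ := by
      funext m
      exact ffsqDesc_apply q hq φ hφ.2 m
    rw [h1]
    exact hφ.1
  refine ⟨H.comap (ffsqPull ↥(ratLocalizedAt ℓ) q), ?_, ?_, ?_, ?_⟩
  · apply Submodule.fg_of_fg_map_injective (ffsqPull ↥(ratLocalizedAt ℓ) q).toLinearMap hinj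
    apply Submodule.FG.of_le hH.fg
    rintro _ ⟨ψ, hψ, rfl⟩
    exact hψ
  · intro ψ hψ σ _ m'
    obtain ⟨m, rfl⟩ := hq m'
    rw [← heqv]
    exact hH.equiv _ hψ σ (Subgroup.mem_top σ) m
  · intro m₁' m₂' hne
    obtain ⟨m₁, rfl⟩ := hq m₁'
    obtain ⟨m₂, rfl⟩ := hq m₂'
    have h1 : m₁ - m₂ ∉ K := by
      intro h
      apply hne
      rw [hKdef, AddMonoidHom.mem_ker, map_sub, sub_eq_zero] at h
      exact h
    obtain ⟨φ, hφ, hφne⟩ := ffsq_inv_sep hact hH K hK m₁ m₂ h1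
    refine ⟨ffsqDesc q hq φ, hdesc φ hφ, ?_⟩
    rw [ffsqDesc_apply q hq φ hφ.2, ffsqDesc_apply q hq φ hφ.2]
    exact hφne
  · intro ψ hψ
    obtain ⟨n, a, b, ha, hb, hab⟩ :=
      ffsq_inv_comul hact hH K (ffsqPull ↥(ratLocalizedAt ℓ) q ψ) ⟨hψ, hpullinv ψ⟩
    refine ⟨n, fun i => ⟨ffsqDesc q hq (a i), hdesc _ (ha i)⟩,
      fun i => ⟨ffsqDesc q hq (b i), hdesc _ (hb i)⟩, ?_⟩
    intro m₁' m₂'
    obtain ⟨m₁, rfl⟩ := hq m₁'
    obtain ⟨m₂, rfl⟩ := hq m₂'
    rw [← map_add]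
    have h1 := hab m₁ m₂
    change ψ (q (m₁ + m₂)) = _ at h1
    rw [h1]
    refine Finset.sum_congr rfl fun i _ => ?_
    change a i m₁ * b i m₂ = ffsqDesc q hq (a i) (q m₁) * ffsqDesc q hq (b i) (q m₂)
    rw [ffsqDesc_apply q hq _ (ha i).2, ffsqDesc_apply q hq _ (hb i).2]

end QuotMain

section Corollaries

variable (ℓ : ℕ)

/-- an action which embeds equivariantly into an `FfAct` is an `FfAct`. -/
theorem ffsq_act_of_injective {M M₁ : Type} [AddCommGroup M] [AddCommGroup M₁]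
    {act : FfGal → M → M} {act₁ : FfGal → M₁ → M₁} (i : M₁ →+ M) (hi : Function.Injective i)
    (hie : ∀ σ m, i (act₁ σ m) = act σ (i m)) (hact : FfAct M act) : FfAct M₁ act₁ where
  one m := hi (by rw [hie, hact.one])
  mul σ τ m := hi (by rw [hie, hact.mul, hie, hie])
  add σ m m' := hi (by rw [hie, map_add, hact.add, map_add, hie, hie])

/-- an action onto which an `FfAct` surjects equivariantly is an `FfAct`. -/
theorem ffsq_act_of_surjective {M M₂ : Type} [AddCommGroup M] [AddCommGroup M₂]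
    {act : FfGal → M → M} {act₂ : FfGal → M₂ → M₂} (q : M →+ M₂) (hq : Function.Surjective q)
    (hqe : ∀ σ m, q (act σ m) = act₂ σ (q m)) (hact : FfAct M act) : FfAct M₂ act₂ where
  one m := by
    obtain ⟨x, rfl⟩ := hq m
    rw [← hqe, hact.one]
  mul σ τ m := by
    obtain ⟨x, rfl⟩ := hq m
    rw [← hqe, hact.mul, hqe, hqe]
  add σ m m' := by
    obtain ⟨x, rfl⟩ := hq m
    obtain ⟨x', rfl⟩ := hq m'
    rw [← map_add, ← hqe, hact.add, map_add, hqe, hqe]

/-- **(A2) subquotient**: an equivariant quotient of a stable subgroup. -/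
theorem ffsq_subquot [Fact ℓ.Prime] (M M₁ M₂ : Type) [AddCommGroup M] [AddCommGroup M₁]
    [AddCommGroup M₂] [Finite M] (act : FfGal → M → M) (act₁ : FfGal → M₁ → M₁)
    (act₂ : FfGal → M₂ → M₂) (i : M₁ →+ M) (hi : Function.Injective i)
    (hie : ∀ σ m, i (act₁ σ m) = act σ (i m)) (q : M₁ →+ M₂) (hq : Function.Surjective q)
    (hqe : ∀ σ m, q (act₁ σ m) = act₂ σ (q m)) (hact : FfAct M act) (h : FfModOrd ℓ M act) :
    FfModOrd ℓ M₂ act₂ := by
  have hfin : Finite M₁ := Finite.of_injective i hi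
  have h1 : FfModOrd ℓ M₁ act₁ := ffsq_sub ℓ M M₁ act act₁ i hi hie hact h
  exact ffsq_quot ℓ M₁ M₂ act₁ act₂ q hq hqe (ffsq_act_of_injective i hi hie hact) h1

/-- the componentwise action on a product is an `FfAct`. -/
theorem ffsq_act_prod {M M' : Type} [AddCommGroup M] [AddCommGroup M'] {act : FfGal → M → M}
    {act' : FfGal → M' → M'} (hact : FfAct M act) (hact' : FfAct M' act') :
    FfAct (M × M') (fun σ x => (act σ x.1, act' σ x.2)) where
  one x := by simp only [hact.one, hact'.one]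
  mul σ τ x := by simp only [hact.mul, hact'.mul]
  add σ x y := by simp only [Prod.fst_add, Prod.snd_add, hact.add, hact'.add, Prod.mk_add_mk]

/-- the componentwise action on a power is an `FfAct`. -/
theorem ffsq_act_pi {M : Type} [AddCommGroup M] {act : FfGal → M → M} (hact : FfAct M act)
    (ι : Type) : FfAct (ι → M) (fun σ x j => act σ (x j)) where
  one x := by funext j; exact hact.one _
  mul σ τ x := by funext j; exact hact.mul _ _ _
  add σ x y := by funext j; exact hact.add _ _ _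

/-- **(A2) finite powers**: `M^m` with the componentwise action. -/
theorem ffsq_pi (M : Type) [AddCommGroup M] [Finite M] (act : FfGal → M → M)
    (hact : FfAct M act) (h : FfModOrd ℓ M act) (m : ℕ) :
    FfModOrd ℓ (Fin m → M) (fun σ x j => act σ (x j)) := by
  induction m with
  | zero =>
    -- the trivial module embeds into `M`
    refine ffsq_sub ℓ M (Fin 0 → M) act _ 0 (fun x y _ => Subsingleton.elim x y) ?_ hact h
    intro σ x
    change (0 : M) = act σ 0
    rw [ffsq_act_zero hact]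
  | succ m ih =>
    have hprod := ffsq_prod ℓ M (Fin m → M) act _ hact (ffsq_act_pi hact (Fin m)) h ih
    set i : (Fin (m + 1) → M) →+ M × (Fin m → M) :=
      { toFun := fun x => (x 0, Fin.tail x)
        map_zero' := rfl
        map_add' := fun _ _ => rfl } with hi
    refine ffsq_sub ℓ (M × (Fin m → M)) (Fin (m + 1) → M) _ _ i ?_ ?_
      (ffsq_act_prod hact (ffsq_act_pi hact (Fin m))) hprod
    · intro x y hxy
      have h0 : x 0 = y 0 := congrArg Prod.fst hxy
      have h1 : Fin.tail x = Fin.tail y := congrArg Prod.snd hxy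
      funext j
      refine Fin.cases h0 (fun j' => ?_) j
      exact congrFun h1 j'
    · intro σ x
      rfl

end Corollaries

end Fermat.Agent.FF
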